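import Mathlib

/-!
# P-MW / MV-BPF (row 776), part 1: generic lemmas (Mathlib only)

* `finrank_quot_mul_eq` : in a Dedekind domain `S` over a field `k`, if `P` is a maximal ideal
  with `S ⧸ P = k`, then `dim_k S ⧸ (I * P) = dim_k S ⧸ I + 1`;
* `finrank_baseChange_submodule` : `dim_k (V.baseChange k) = dim_{k₀} V`.
-/

set_option autoImplicit false
set_option linter.unusedSectionVars false

noncomputable section

namespace Fermat.Agent.H48.Bpf

open Module TensorProduct

/-- `dim_k S ⧸ (I * P) = dim_k S ⧸ I + 1` for a `k`-rational maximal ideal `P` of a Dedekind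
domain. -/
theorem finrank_quot_mul_eq {k S : Type*} [Field k] [CommRing S] [Algebra k S]
    [IsDedekindDomain S] (I P : Ideal S) (hI : I ≠ ⊥) (hP : P.IsMaximal) (hP0 : P ≠ ⊥)
    (hsurj : Function.Surjective (algebraMap k (S ⧸ P)))
    (hfin : Module.Finite k (S ⧸ (I * P))) :
    finrank k (S ⧸ (I * P)) = finrank k (S ⧸ I) + 1 := by
  classical
  have hJI : I * P ≤ I := Ideal.mul_le_left
  have hJ0 : I * P ≠ 0 := mul_ne_zero hI hP0
  obtain ⟨a, ha⟩ := IsDedekindDomain.exists_sup_span_eq hJI hJ0
  have haI : a ∈ I := by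
    rw [← ha]
    exact Ideal.mem_sup_right (Ideal.mem_span_singleton_self a)
  have haJ : a ∉ I * P := by
    intro h
    have h1 : I * P ⊔ Ideal.span {a} = I * P :=
      sup_eq_left.2 ((Ideal.span_singleton_le_iff_mem _).2 h)
    rw [h1] at ha
    have h2 : I * P = I * ⊤ := by rw [ha, Ideal.mul_top]
    have h3 := mul_left_cancel₀ hI h2
    exact hP.ne_top h3
  let f : (S ⧸ (I * P)) →ₗ[k] (S ⧸ I) := (Ideal.Quotient.factorₐ k hJI).toLinearMap
  have hf : Function.Surjective f := Ideal.Quotient.factor_surjective hJI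
  have hker : LinearMap.ker f = Submodule.span k {Ideal.Quotient.mk (I * P) a} := by
    apply le_antisymm
    · intro x hx
      obtain ⟨r, rfl⟩ := Ideal.Quotient.mk_surjective x
      have hrI : r ∈ I := by
        have h1 : f (Ideal.Quotient.mk (I * P) r) = 0 := hx
        have h2 : f (Ideal.Quotient.mk (I * P) r) = Ideal.Quotient.mk I r := rfl
        rw [h2, Ideal.Quotient.eq_zero_iff_mem] at h1
        exact h1
      rw [← ha] at hrI
      obtain ⟨j, hj, z, hz, rfl⟩ := Submodule.mem_sup.1 hrI
      obtain ⟨s, rfl⟩ := Ideal.mem_span_singleton'.1 hz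
      obtain ⟨c, hc⟩ := hsurj (Ideal.Quotient.mk P s)
      have hsp : s - algebraMap k S c ∈ P := by
        rw [← Ideal.Quotient.eq_zero_iff_mem, map_sub, ← hc]
        exact sub_self _
      rw [Submodule.mem_span_singleton]
      refine ⟨c, ?_⟩
      rw [Algebra.smul_def, ← sub_eq_zero]
      have h3 : algebraMap k (S ⧸ I * P) c * Ideal.Quotient.mk (I * P) a -
          Ideal.Quotient.mk (I * P) (j + s * a) =
            Ideal.Quotient.mk (I * P) (-(j + (s - algebraMap k S c) * a)) := by
        rw [map_neg, map_add, map_add, map_mul, map_mul, map_sub]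
        have h4 : Ideal.Quotient.mk (I * P) (algebraMap k S c) =
            algebraMap k (S ⧸ I * P) c := rfl
        rw [h4]
        ring
      rw [h3, Ideal.Quotient.eq_zero_iff_mem]
      apply neg_mem
      apply add_mem hj
      exact Ideal.mul_mem_mul_rev haI hsp
    · rw [Submodule.span_le, Set.singleton_subset_iff]
      show f (Ideal.Quotient.mk (I * P) a) = 0
      have h2 : f (Ideal.Quotient.mk (I * P) a) = Ideal.Quotient.mk I a := rfl
      rw [h2, Ideal.Quotient.eq_zero_iff_mem]
      exact haI
  have hne : Ideal.Quotient.mk (I * P) a ≠ 0 := by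
    rw [Ne, Ideal.Quotient.eq_zero_iff_mem]
    exact haJ
  have h1 := LinearMap.finrank_range_add_finrank_ker f
  rw [LinearMap.range_eq_top.2 hf, finrank_top, hker, finrank_span_singleton hne] at h1
  exact h1.symm

/-- `dim_k (V.baseChange k) = dim_{k₀} V`. -/
theorem finrank_baseChange_submodule {k₀ k M : Type*} [Field k₀] [Field k] [Algebra k₀ k]
    [AddCommGroup M] [Module k₀ M] (V : Submodule k₀ M) :
    finrank k (V.baseChange k) = finrank k₀ V := by
  rw [← (Submodule.toBaseChange.toLinearEquiv k V).finrank_eq, Module.finrank_baseChange]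

end Fermat.Agent.H48.Bpf
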