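import Mathlib
import Fermat.Agent.H89.MW.LpfGeoInterfaces
import Fermat.Agent.H48.MW.BpfGeneric

/-!
# P-MW / LPF-G-JETS (row 847): `JetsRbStatement 𝒞` from `BarFacts 𝒞`

Riemann-Roch (`bar_rr`) and the Chinese remainder theorem: for `I = ∏ 𝔪 ^ n 𝔪` the space
`A ⧸ I` (`A = ℚ̄ ⊗ R`) has dimension `∑ n 𝔪`, so by Riemann-Roch at the level `m' = m - nInf`
the map `WBar m' → A ⧸ I` is surjective; correct `g` by an element of `WBar m'`.
-/

set_option autoImplicit false
set_option linter.unusedSectionVars false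
set_option linter.style.haveILetI false
set_option maxHeartbeats 1000000

noncomputable section

namespace Fermat.Agent.H48.Jets

open Module TensorProduct

section Generic

variable {k A : Type*} [Field k] [CommRing A] [Algebra k A] [IsDedekindDomain A]

/-- `dim A ⧸ (I * P ^ n) = dim A ⧸ I + n` for a `k`-rational maximal ideal `P`. -/
theorem finrank_quot_mul_pow (hfin : ∀ J : Ideal A, J ≠ ⊥ → Module.Finite k (A ⧸ J))
    (I P : Ideal A) (hI : I ≠ ⊥) (hP : P.IsMaximal) (hP0 : P ≠ ⊥)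
    (hsurj : Function.Surjective (algebraMap k (A ⧸ P))) (n : ℕ) :
    finrank k (A ⧸ (I * P ^ n)) = finrank k (A ⧸ I) + n := by
  induction n with
  | zero => rw [pow_zero, mul_one, add_zero]
  | succ n ih =>
    have h0 : I * P ^ n ≠ ⊥ := mul_ne_zero hI (pow_ne_zero n hP0)
    have h1 : I * P ^ (n + 1) = (I * P ^ n) * P := by rw [pow_succ, mul_assoc]
    rw [h1, Fermat.Agent.H48.Bpf.finrank_quot_mul_eq (I * P ^ n) P h0 hP hP0 hsurj
      (hfin _ (mul_ne_zero h0 hP0)), ih, add_assoc]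

/-- `dim A ⧸ ∏ P ^ n P = ∑ n P` for `k`-rational maximal ideals. -/
theorem finrank_quot_prod_pow (hfin : ∀ J : Ideal A, J ≠ ⊥ → Module.Finite k (A ⧸ J))
    (s : Finset (Ideal A)) (n : Ideal A → ℕ)
    (hs : ∀ P ∈ s, P.IsMaximal ∧ P ≠ ⊥ ∧ Function.Surjective (algebraMap k (A ⧸ P))) :
    (∏ P ∈ s, P ^ n P) ≠ ⊥ ∧ finrank k (A ⧸ ∏ P ∈ s, P ^ n P) = ∑ P ∈ s, n P := by
  classical
  induction s using Finset.induction_on with
  | empty =>
    refine ⟨?_, ?_⟩
    · rw [Finset.prod_empty, Ideal.one_eq_top]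
      exact top_ne_bot
    · rw [Finset.prod_empty, Finset.sum_empty, Ideal.one_eq_top]
      haveI : Subsingleton (A ⧸ (⊤ : Ideal A)) := Ideal.Quotient.subsingleton_iff.2 rfl
      exact Module.finrank_zero_of_subsingleton
  | insert P s hPs ih =>
    obtain ⟨ih0, ih1⟩ := ih (fun Q hQ => hs Q (Finset.mem_insert_of_mem hQ))
    obtain ⟨hP, hP0, hsurj⟩ := hs P (Finset.mem_insert_self P s)
    refine ⟨?_, ?_⟩
    · rw [Finset.prod_insert hPs]
      exact mul_ne_zero (pow_ne_zero _ hP0) ih0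
    · rw [Finset.prod_insert hPs, Finset.sum_insert hPs, mul_comm,
        finrank_quot_mul_pow hfin _ P ih0 hP hP0 hsurj, ih1, add_comm]

/-- If `W ∩ I` has the expected dimension, then `W → A ⧸ I` is surjective. -/
theorem exists_mem_sub_mem (W : Submodule k A) [Module.Finite k W] (I : Ideal A)
    [Module.Finite k (A ⧸ I)]
    (h : finrank k ↥(W ⊓ I.restrictScalars k) + finrank k (A ⧸ I) = finrank k W) (a : A) :
    ∃ w ∈ W, w - a ∈ I := by
  set φ : W →ₗ[k] A ⧸ I := (Ideal.Quotient.mkₐ k I).toLinearMap ∘ₗ W.subtype with hφ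
  have hker : LinearMap.ker φ = Submodule.comap W.subtype (I.restrictScalars k) := by
    ext x
    rw [LinearMap.mem_ker, Submodule.mem_comap]
    show Ideal.Quotient.mk I (x : A) = 0 ↔ _
    rw [Ideal.Quotient.eq_zero_iff_mem]
    rfl
  have hkr : finrank k (LinearMap.ker φ) = finrank k ↥(W ⊓ I.restrictScalars k) := by
    rw [hker, ← Submodule.map_comap_subtype, Submodule.finrank_map_subtype_eq]
  have hrn := LinearMap.finrank_range_add_finrank_ker φ
  have hrange : finrank k (LinearMap.range φ) = finrank k (A ⧸ I) := by omega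
  have htop : LinearMap.range φ = ⊤ := Submodule.eq_top_of_finrank_eq hrange
  have hmem : Ideal.Quotient.mk I a ∈ LinearMap.range φ := by rw [htop]; trivial
  obtain ⟨w, hw⟩ := hmem
  refine ⟨w, w.2, ?_⟩
  rw [← Ideal.Quotient.eq]
  exact hw

end Generic

open Fermat.Agent.H92.MW Fermat.Agent.H89.MW

variable {R : Type} [CommRing R] [Algebra ℚ R] [IsDedekindDomain R]

/-- **LPF-G-JETS** (row 847). -/
theorem jetsRb (𝒞 : MWDatum R) (hB : BarFacts 𝒞) : JetsRbStatement 𝒞 := by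
  classical
  intro m nInf s n hs hsum y g hg
  haveI := 𝒞.bar_dedekind
  have hfin : ∀ J : Ideal (QQbar ⊗[ℚ] R), J ≠ ⊥ → Module.Finite QQbar ((QQbar ⊗[ℚ] R) ⧸ J) :=
    fun J hJ => (𝒞.bar_rr J hJ).1
  have hs' : ∀ P ∈ s, P.IsMaximal ∧ P ≠ ⊥ ∧
      Function.Surjective (algebraMap QQbar ((QQbar ⊗[ℚ] R) ⧸ P)) := by
    intro P hP
    have hP0 : P ≠ ⊥ := Ring.ne_bot_of_isMaximal_of_not_isField (hs P hP) hB.not_isField
    refine ⟨hs P hP, hP0, ?_⟩
    haveI := hs P hP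
    haveI : Module.Finite QQbar ((QQbar ⊗[ℚ] R) ⧸ P) := hfin P hP0
    exact (IsAlgClosed.algebraMap_bijective_of_isIntegral (k := QQbar)
      (K := (QQbar ⊗[ℚ] R) ⧸ P)).2
  obtain ⟨hI0, hd⟩ := finrank_quot_prod_pow hfin s n hs'
  set I : Ideal (QQbar ⊗[ℚ] R) := ∏ P ∈ s, P ^ n P with hI
  obtain ⟨hfinI, hrr⟩ := 𝒞.bar_rr I hI0
  have hrr' : finrank QQbar ↥(WBar 𝒞 (m - nInf) ⊓ I.restrictScalars QQbar) +
      finrank QQbar ((QQbar ⊗[ℚ] R) ⧸ I) + 𝒞.g = m - nInf + 1 :=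
    hrr (m - nInf) (by rw [hd]; omega)
  have hW : finrank QQbar (WBar 𝒞 (m - nInf)) + 𝒞.g = m - nInf + 1 := by
    rw [hB.finrank_eq]
    exact 𝒞.W_finrank (m - nInf) (by omega)
  haveI := hB.finite (m - nInf)
  -- the Chinese remainder theorem
  obtain ⟨a, ha⟩ := IsDedekindDomain.exists_forall_sub_mem_ideal (s := s)
    (fun P : Ideal (QQbar ⊗[ℚ] R) => P) n
    (fun P hP => Ideal.prime_of_isPrime (hs' P hP).2.1 (hs P hP).isPrime)
    (fun P _ Q _ hPQ => hPQ) (fun P => y P.1)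
  -- correct `g`
  obtain ⟨w, hw, hwa⟩ := exists_mem_sub_mem (WBar 𝒞 (m - nInf)) I (by omega) (a - g)
  refine ⟨g + w, ?_, fun P hP => ?_, ?_⟩
  · exact (WBar 𝒞 m).add_mem hg (hB.mono (Nat.sub_le m nInf) hw)
  · have hle : I ≤ P ^ n P := by
      rw [hI]
      exact Ideal.le_of_dvd (Finset.dvd_prod_of_mem (fun P => P ^ n P) hP)
    have h1 := hle hwa
    have h2 := ha P hP
    have e : g + w - y P = (w - (a - g)) + (a - y P) := by ring
    rw [e]
    exact (P ^ n P).add_mem h1 h2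
  · rw [add_sub_cancel_left]
    exact hw

end Fermat.Agent.H48.Jets
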