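import Mathlib
import Fermat.Agent.H30.MW.MoveInterfaces
import Fermat.Agent.H48.MW.BpfGeneric

/-!
# P-MW / MV-BPF (row 776): base-point-freeness of `I₀ ∩ W m`

For `I₀ ≠ ⊥`, `P` maximal and `deg I₀ + m₀ + 1 ≤ m` there is `v ∈ I₀ ∩ W m` with `v ∉ I₀ * P`.
Proof by base change to `ℚ̄`: choose a maximal ideal `P_b` of `ℚ̄ ⊗ R` over `P`; by Riemann-Roch
over `ℚ̄` the space `W_b m ∩ I₀ P_b` has dimension `dim (W m ∩ I₀) - 1`.
-/

set_option autoImplicit false
set_option linter.unusedSectionVars false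
set_option linter.style.haveILetI false
set_option maxHeartbeats 1000000

noncomputable section

namespace Fermat.Agent.H48.Bpf

open Module TensorProduct
open Fermat.Agent.H92.MW Fermat.Agent.H30.MW

variable {R : Type} [CommRing R] [Algebra ℚ R] [IsDedekindDomain R]

/-- `dim_{ℚ̄} (ℚ̄ ⊗ R) ⧸ I (ℚ̄ ⊗ R) = dim_ℚ R ⧸ I`. -/
theorem finrank_quot_map_includeRight (I : Ideal R) :
    finrank QQbar ((QQbar ⊗[ℚ] R) ⧸
      I.map (Algebra.TensorProduct.includeRight : R →ₐ[ℚ] QQbar ⊗[ℚ] R)) =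
      finrank ℚ (R ⧸ I) := by
  rw [← (Algebra.TensorProduct.tensorQuotientEquiv (R := ℚ) QQbar R QQbar I).toLinearEquiv.finrank_eq,
    Module.finrank_baseChange]

/-- **MV-BPF** (row 776). -/
theorem bpf (𝒞 : MWDatum R) (hB : BasicStatement 𝒞) : BPFStatement 𝒞 := by
  classical
  intro I₀ P m hI₀ hP hm
  by_contra hcon
  push Not at hcon
  haveI := 𝒞.bar_dedekind
  have hP0 : P ≠ ⊥ := Ring.ne_bot_of_isMaximal_of_not_isField hP 𝒞.notField
  set ι : R →ₐ[ℚ] QQbar ⊗[ℚ] R := Algebra.TensorProduct.includeRight with hιdef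
  have hι : Function.Injective ι :=
    Algebra.TensorProduct.includeRight_injective (algebraMap ℚ QQbar).injective
  -- the extended ideals
  have hI₀b : I₀.map ι ≠ ⊥ := by
    rw [Ne, Ideal.map_eq_bot_iff_of_injective hι]
    exact hI₀
  have hPb' : P.map ι ≠ ⊥ := by
    rw [Ne, Ideal.map_eq_bot_iff_of_injective hι]
    exact hP0
  have hPtop : P.map ι ≠ ⊤ := by
    intro htop
    haveI : Module.Finite ℚ (R ⧸ P) := hB.1 P hP0
    haveI : Nontrivial (R ⧸ P) := Ideal.Quotient.nontrivial_iff.2 hP.ne_top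
    have h1 : 0 < finrank ℚ (R ⧸ P) := Module.finrank_pos
    rw [← finrank_quot_map_includeRight P] at h1
    have h2 : Subsingleton ((QQbar ⊗[ℚ] R) ⧸ P.map ι) :=
      Ideal.Quotient.subsingleton_iff.2 htop
    rw [Module.finrank_zero_of_subsingleton] at h1
    exact lt_irrefl _ h1
  obtain ⟨Pb, hPbmax, hPle⟩ := Ideal.exists_le_maximal _ hPtop
  have hPb0 : Pb ≠ ⊥ := fun h => hPb' (le_bot_iff.1 (h ▸ hPle))
  haveI := hPbmax
  haveI : Module.Finite QQbar ((QQbar ⊗[ℚ] R) ⧸ Pb) := (𝒞.bar_rr Pb hPb0).1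
  have hsurj : Function.Surjective (algebraMap QQbar ((QQbar ⊗[ℚ] R) ⧸ Pb)) :=
    (IsAlgClosed.algebraMap_bijective_of_isIntegral (k := QQbar)
      (K := (QQbar ⊗[ℚ] R) ⧸ Pb)).2
  -- the ideal `J = I₀b * Pb`
  have hJ0 : I₀.map ι * Pb ≠ ⊥ := mul_ne_zero hI₀b hPb0
  obtain ⟨hfinJ, hrrJ⟩ := 𝒞.bar_rr (I₀.map ι * Pb) hJ0
  have hdegJ : finrank QQbar ((QQbar ⊗[ℚ] R) ⧸ (I₀.map ι * Pb)) = 𝒞.deg I₀ + 1 := by
    rw [finrank_quot_mul_eq (I₀.map ι) Pb hI₀b hPbmax hPb0 hsurj hfinJ,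
      finrank_quot_map_includeRight I₀]
    rfl
  have hrr := hrrJ m (by rw [hdegJ]; omega)
  rw [hdegJ] at hrr
  -- Riemann-Roch over `ℚ`
  have hrrQ := hB.2.1 I₀ m hI₀ (by omega)
  set V : Submodule ℚ R := 𝒞.W m ⊓ I₀.restrictScalars ℚ with hV
  have hVrank : finrank ℚ V = finrank ℚ (𝒞.rrSpace m I₀) := by
    rw [hV, ← Submodule.map_comap_subtype, Submodule.finrank_map_subtype_eq]
    rfl
  -- the inclusion
  have hle : V.baseChange QQbar ≤
      (𝒞.W m).baseChange QQbar ⊓ (I₀.map ι * Pb).restrictScalars QQbar := by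
    rw [Submodule.baseChange_eq_span, Submodule.span_le]
    rintro _ ⟨v, hv, rfl⟩
    refine ⟨Submodule.tmul_mem_baseChange_of_mem 1 hv.1, ?_⟩
    have h1 : v ∈ I₀ * P := hcon v hv.2 hv.1
    have h2 : ι v ∈ (I₀ * P).map ι := Ideal.mem_map_of_mem ι h1
    rw [Ideal.map_mul] at h2
    exact Ideal.mul_mono le_rfl hPle h2
  haveI : Module.Finite QQbar ↥((𝒞.W m).baseChange QQbar) :=
    Module.Finite.of_surjective ((𝒞.W m).toBaseChange QQbar)
      (Submodule.toBaseChange_surjective QQbar (𝒞.W m))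
  haveI : Module.Finite QQbar
      ↥((𝒞.W m).baseChange QQbar ⊓ (I₀.map ι * Pb).restrictScalars QQbar) :=
    Submodule.finiteDimensional_of_le inf_le_left
  have hmono := Submodule.finrank_mono hle
  rw [finrank_baseChange_submodule, hVrank] at hmono
  omega

end Fermat.Agent.H48.Bpf
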