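import Mathlib

/-!
# P-MW / MW-SMALLVEC (row 681), part 1: maximal minors (Mathlib only)

* `exists_minor_ne_zero` : an `l × n` matrix over a field with linearly independent rows has a
  nonzero maximal minor;
* `det_submatrix_eq_zero_or` : the determinant of an arbitrary selection `f : Fin l → Fin n` of
  columns is `0` or `±` a maximal minor.
-/

set_option autoImplicit false
set_option linter.unusedSectionVars false

noncomputable section

namespace Fermat.Agent.H48.SmallVec

open Matrix Module

/-- the maximal minor on the columns `s` (columns in increasing order) -/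
def minor {K : Type*} [CommRing K] {l n : ℕ} (A : Matrix (Fin l) (Fin n) K)
    (s : {s : Finset (Fin n) // s.card = l}) : K :=
  (A.submatrix id (s.1.orderEmbOfFin s.2)).det

theorem minor_map {K K' : Type*} [CommRing K] [CommRing K'] (φ : K →+* K') {l n : ℕ}
    (A : Matrix (Fin l) (Fin n) K) (s : {s : Finset (Fin n) // s.card = l}) :
    minor (A.map φ) s = φ (minor A s) := by
  unfold minor
  rw [RingHom.map_det]
  rfl

/-- **(L1)** linearly independent rows give a nonzero maximal minor. -/
theorem exists_minor_ne_zero {F : Type*} [Field F] {l n : ℕ} (B : Matrix (Fin l) (Fin n) F)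
    (hB : LinearIndependent F B.row) :
    ∃ s : {s : Finset (Fin n) // s.card = l}, minor B s ≠ 0 := by
  classical
  have hrank : B.rank = l := by
    have := hB.rank_matrix
    rwa [Fintype.card_fin] at this
  have hspan : Submodule.span F (Set.range B.col) = ⊤ := by
    apply Submodule.eq_top_of_finrank_eq
    rw [← rank_eq_finrank_span_cols, hrank, Module.finrank_pi, Fintype.card_fin]
  obtain ⟨b, -, -, hsp, hli⟩ := exists_linearIndepOn_extension (K := F) (v := B.col)
    (s := (∅ : Set (Fin n))) (t := Set.univ) (linearIndepOn_empty F B.col) (Set.empty_subset _)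
  have hspan' : Submodule.span F (Set.range fun i : b => B.col i) = ⊤ := by
    rw [eq_top_iff, ← hspan, Submodule.span_le]
    rintro _ ⟨j, rfl⟩
    have h1 := hsp ⟨j, Set.mem_univ j, rfl⟩
    have h2 : B.col '' b = Set.range fun i : b => B.col i := by
      ext x
      constructor
      · rintro ⟨i, hi, rfl⟩
        exact ⟨⟨i, hi⟩, rfl⟩
      · rintro ⟨⟨i, hi⟩, rfl⟩
        exact ⟨i, hi, rfl⟩
    rw [h2] at h1
    exact h1
  have hli' : LinearIndependent F (fun i : b => B.col i) := hli
  let bas : Basis b F (Fin l → F) := Basis.mk hli' (le_of_eq hspan'.symm)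
  have hcard : Fintype.card b = l := by
    have h1 := Module.finrank_eq_card_basis bas
    rw [Module.finrank_pi, Fintype.card_fin] at h1
    exact h1.symm
  have hs : b.toFinset.card = l := by
    rw [Set.toFinset_card]
    exact hcard
  refine ⟨⟨b.toFinset, hs⟩, ?_⟩
  have hmem : ∀ i : Fin l, (b.toFinset.orderEmbOfFin hs i : Fin n) ∈ b := by
    intro i
    have := Finset.orderEmbOfFin_mem b.toFinset hs i
    exact Set.mem_toFinset.1 this
  have hcols : LinearIndependent F
      (B.submatrix id (b.toFinset.orderEmbOfFin hs)).col := by
    have h1 := hli'.comp (fun i : Fin l => (⟨b.toFinset.orderEmbOfFin hs i, hmem i⟩ : b)) (by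
      intro i j hij
      have := congrArg Subtype.val hij
      exact (b.toFinset.orderEmbOfFin hs).injective this)
    exact h1
  have hunit := Matrix.linearIndependent_cols_iff_isUnit.1 hcols
  exact ((Matrix.isUnit_iff_isUnit_det _).1 hunit).ne_zero

/-- **(L2)** the determinant of an arbitrary selection of columns is `0` or `±` a maximal
minor. -/
theorem det_submatrix_eq_zero_or {K : Type*} [CommRing K] {l n : ℕ}
    (A : Matrix (Fin l) (Fin n) K) (f : Fin l → Fin n) :
    (A.submatrix id f).det = 0 ∨
      ∃ s : {s : Finset (Fin n) // s.card = l},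
        (A.submatrix id f).det = minor A s ∨ (A.submatrix id f).det = -minor A s := by
  classical
  by_cases hf : Function.Injective f
  · right
    have hs : (Finset.univ.image f).card = l := by
      rw [Finset.card_image_of_injective _ hf, Finset.card_univ, Fintype.card_fin]
    have hmem : ∀ i, f i ∈ Finset.univ.image f := fun i =>
      Finset.mem_image_of_mem f (Finset.mem_univ i)
    let e := (Finset.univ.image f).orderIsoOfFin hs
    let σf : Fin l → Fin l := fun i => e.symm ⟨f i, hmem i⟩
    have hσinj : Function.Injective σf := by
      intro i j hij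
      have h1 := e.symm.injective hij
      exact hf (congrArg Subtype.val h1)
    let σ : Equiv.Perm (Fin l) := Equiv.ofBijective σf (Finite.injective_iff_bijective.1 hσinj)
    have hσ : ∀ i, (Finset.univ.image f).orderEmbOfFin hs (σ i) = f i := by
      intro i
      rw [← Finset.coe_orderIsoOfFin_apply]
      show ((e (e.symm ⟨f i, hmem i⟩) : ↥(Finset.univ.image f)) : Fin n) = f i
      rw [OrderIso.apply_symm_apply]
    have hsub : A.submatrix id f =
        (A.submatrix id ((Finset.univ.image f).orderEmbOfFin hs)).submatrix id σ := by
      ext i j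
      simp only [submatrix_apply, id_eq]
      rw [hσ]
    refine ⟨⟨Finset.univ.image f, hs⟩, ?_⟩
    rw [hsub, Matrix.det_permute']
    rcases Int.units_eq_one_or (Equiv.Perm.sign σ) with h | h
    · left
      rw [h]
      simp [minor]
    · right
      rw [h]
      simp [minor]
  · left
    rw [Function.Injective] at hf
    push Not at hf
    obtain ⟨i, j, hij, hne⟩ := hf
    exact Matrix.det_zero_of_column_eq hne fun k => by simp [hij]

end Fermat.Agent.H48.SmallVec
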