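import Mathlib
import Fermat.Agent.H48.MW.SmallVecMinor

/-!
# P-MW / MW-SMALLVEC (row 681), part 3: pigeonhole and Cramer (Mathlib only)

`exists_small_combination` : for an integral `l × n` matrix `A'` whose maximal minor of largest
absolute value is `m₀ ≠ 0`, and `|m₀| < (B + 1) ^ l`, some integral combination `y A'` of the rows
is nonzero with all entries of absolute value `≤ l B`.
-/

set_option autoImplicit false
set_option linter.unusedSectionVars false

noncomputable section

namespace Fermat.Agent.H48.SmallVec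

open Matrix Module

/-- the index of the row lattice of a square integral matrix -/
theorem card_quotient_range_vecMul {l : ℕ} (M : Matrix (Fin l) (Fin l) ℤ) (hM : M.det ≠ 0) :
    Nat.card ((Fin l → ℤ) ⧸ LinearMap.range M.vecMulLinear) = M.det.natAbs := by
  classical
  have hinj : Function.Injective M.vecMulLinear := by
    rw [← LinearMap.ker_eq_bot, LinearMap.ker_eq_bot']
    intro v hv
    exact Matrix.eq_zero_of_vecMul_eq_zero hM hv
  let bN : Basis (Fin l) ℤ (LinearMap.range M.vecMulLinear) :=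
    (Pi.basisFun ℤ (Fin l)).map (LinearEquiv.ofInjective M.vecMulLinear hinj)
  have h1 := Submodule.natAbs_det_basis_change (Pi.basisFun ℤ (Fin l))
    (LinearMap.range M.vecMulLinear) bN
  rw [← h1, Pi.basisFun_det_apply]
  congr 2
  ext i j
  simp only [Matrix.of_apply, Function.comp_apply, bN, Basis.map_apply,
    LinearEquiv.ofInjective_apply, Pi.basisFun_apply, Matrix.vecMulLinear_apply,
    Matrix.single_one_vecMul]
  rfl

/-- **(L4)** pigeonhole + Cramer. -/
theorem exists_small_combination {l n : ℕ} (A' : Matrix (Fin l) (Fin n) ℤ)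
    (s₀ : {s : Finset (Fin n) // s.card = l}) (hs₀ : minor A' s₀ ≠ 0)
    (hmax : ∀ s, |minor A' s| ≤ |minor A' s₀|) (B : ℕ)
    (hB : (minor A' s₀).natAbs < (B + 1) ^ l) :
    ∃ y : Fin l → ℤ, y ᵥ* A' ≠ 0 ∧ ∀ j, |(y ᵥ* A') j| ≤ (l : ℤ) * B := by
  classical
  set e₀ := s₀.1.orderEmbOfFin s₀.2 with he₀
  set M0 : Matrix (Fin l) (Fin l) ℤ := A'.submatrix id e₀ with hM0
  have hdet : M0.det = minor A' s₀ := rfl
  have hM0det : M0.det ≠ 0 := hs₀
  have hcard := card_quotient_range_vecMul M0 hM0det
  rw [hdet] at hcard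
  have hfin : Finite ((Fin l → ℤ) ⧸ LinearMap.range M0.vecMulLinear) := by
    apply Nat.finite_of_card_ne_zero
    rw [hcard]
    exact Int.natAbs_ne_zero.2 hs₀
  let _ : Fintype ((Fin l → ℤ) ⧸ LinearMap.range M0.vecMulLinear) := Fintype.ofFinite _
  -- the box
  let φ : (Fin l → Fin (B + 1)) → (Fin l → ℤ) ⧸ LinearMap.range M0.vecMulLinear :=
    fun w => Submodule.Quotient.mk (fun i => ((w i : ℕ) : ℤ))
  have hlt : Fintype.card ((Fin l → ℤ) ⧸ LinearMap.range M0.vecMulLinear) <
      Fintype.card (Fin l → Fin (B + 1)) := by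
    rw [← Nat.card_eq_fintype_card, hcard, Fintype.card_fun, Fintype.card_fin, Fintype.card_fin]
    exact hB
  obtain ⟨w₁, w₂, hne, heq⟩ := Fintype.exists_ne_map_eq_of_card_lt φ hlt
  have hmem : (fun i => ((w₁ i : ℕ) : ℤ)) - (fun i => ((w₂ i : ℕ) : ℤ)) ∈
      LinearMap.range M0.vecMulLinear := (Submodule.Quotient.eq _).1 heq
  obtain ⟨y, hy⟩ := hmem
  rw [Matrix.vecMulLinear_apply] at hy
  set w : Fin l → ℤ := (fun i => ((w₁ i : ℕ) : ℤ)) - (fun i => ((w₂ i : ℕ) : ℤ)) with hw
  have hw0 : w ≠ 0 := by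
    intro h0
    apply hne
    ext i
    have := congrFun h0 i
    simp only [hw, Pi.sub_apply, Pi.zero_apply, sub_eq_zero] at this
    exact_mod_cast this
  have hwB : ∀ k, |w k| ≤ (B : ℤ) := by
    intro k
    have h1 : ((w₁ k : ℕ) : ℤ) ≤ B := by
      have := (w₁ k).2
      omega
    have h2 : ((w₂ k : ℕ) : ℤ) ≤ B := by
      have := (w₂ k).2
      omega
    have h3 : (0 : ℤ) ≤ ((w₁ k : ℕ) : ℤ) := Int.natCast_nonneg _
    have h4 : (0 : ℤ) ≤ ((w₂ k : ℕ) : ℤ) := Int.natCast_nonneg _
    simp only [hw, Pi.sub_apply]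
    rw [abs_le]
    constructor <;> omega
  have hvw : ∀ k, (y ᵥ* A') (e₀ k) = w k := by
    intro k
    rw [← hy]
    simp only [Matrix.vecMul, dotProduct, hM0, Matrix.submatrix_apply, id_eq]
  refine ⟨y, ?_, ?_⟩
  · intro h0
    apply hw0
    ext k
    rw [← hvw, h0]
    rfl
  · intro j
    -- Cramer
    set b : Fin l → ℤ := fun i => A' i j with hb
    have hcr := Matrix.mulVec_cramer M0 b
    have h1 : M0.det * (y ᵥ* A') j = ∑ k, w k * (M0.updateCol k b).det := by
      have h2 : (y ᵥ* A') j = y ⬝ᵥ b := rfl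
      have h2' : y ⬝ᵥ (M0.det • b) = M0.det * (y ⬝ᵥ b) := by
        rw [dotProduct_smul, smul_eq_mul]
      rw [h2, ← h2', ← hcr, Matrix.dotProduct_mulVec, hy]
      simp only [dotProduct, Matrix.cramer_apply]
    have h3 : ∀ k, |(M0.updateCol k b).det| ≤ |minor A' s₀| := by
      intro k
      have h4 : M0.updateCol k b = A'.submatrix id (Function.update e₀ k j) := by
        ext i k'
        simp only [Matrix.updateCol_apply, Matrix.submatrix_apply, id_eq, hM0, hb,
          Function.update_apply]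
        split_ifs <;> rfl
      rw [h4]
      rcases det_submatrix_eq_zero_or A' (Function.update e₀ k j) with h5 | ⟨s, h5 | h5⟩
      · rw [h5, abs_zero]
        exact abs_nonneg _
      · rw [h5]
        exact hmax s
      · rw [h5, abs_neg]
        exact hmax s
    have hpos : 0 < |minor A' s₀| := abs_pos.2 hs₀
    have h6 : |minor A' s₀| * |(y ᵥ* A') j| ≤ |minor A' s₀| * ((l : ℤ) * B) := by
      rw [← abs_mul, ← hdet, h1]
      calc |∑ k, w k * (M0.updateCol k b).det|
          ≤ ∑ k, |w k * (M0.updateCol k b).det| := Finset.abs_sum_le_sum_abs _ _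
        _ ≤ ∑ _k : Fin l, (B : ℤ) * |minor A' s₀| := by
            refine Finset.sum_le_sum fun k _ => ?_
            rw [abs_mul]
            exact mul_le_mul (hwB k) (h3 k) (abs_nonneg _) (Int.natCast_nonneg _)
        _ = |M0.det| * ((l : ℤ) * B) := by
            rw [Finset.sum_const, Finset.card_univ, Fintype.card_fin, hdet]
            simp only [nsmul_eq_mul]
            ring
    exact le_of_mul_le_mul_left h6 hpos

end Fermat.Agent.H48.SmallVec
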