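import Mathlib
import Fermat.Agent.H48.MW.SmallVecMinor

/-!
# P-MW / MW-SMALLVEC (row 681), part 2: a primitive integral representative (Mathlib only)

Every integral `l × n` matrix `A₁` with a nonzero maximal minor is `g⁻¹ A'` with `g ∈ GL_l(ℚ)`
and `A'` integral with coprime maximal minors.  (Descent on the gcd of the minors: if a prime
`p` divides all minors, the rows are dependent modulo `p`, and a row can be replaced by
`(c A₁) / p`.)
-/

set_option autoImplicit false
set_option linter.unusedSectionVars false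

noncomputable section

namespace Fermat.Agent.H48.SmallVec

open Matrix Module

/-- one descent step -/
theorem exists_descent_step {l n : ℕ} (A₁ : Matrix (Fin l) (Fin n) ℤ) (p : ℕ) (hp : p.Prime)
    (hdvd : ∀ s, (p : ℤ) ∣ minor A₁ s) :
    ∃ (A₂ : Matrix (Fin l) (Fin n) ℤ) (g : Matrix (Fin l) (Fin l) ℚ), g.det ≠ 0 ∧
      A₂.map (Int.castRingHom ℚ) = g * A₁.map (Int.castRingHom ℚ) ∧
      ∀ s, minor A₁ s = p * minor A₂ s := by
  classical
  have : Fact p.Prime := ⟨hp⟩
  have hp0 : (p : ℚ) ≠ 0 := Nat.cast_ne_zero.2 hp.ne_zero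
  -- the rows are dependent modulo `p`
  have hnli : ¬ LinearIndependent (ZMod p) (A₁.map (Int.castRingHom (ZMod p))).row := by
    intro hli
    obtain ⟨s, hs⟩ := exists_minor_ne_zero _ hli
    apply hs
    rw [minor_map]
    exact (ZMod.intCast_zmod_eq_zero_iff_dvd _ p).2 (hdvd s)
  obtain ⟨c₀, hsum₀, i₀, hi₀⟩ := Fintype.not_linearIndependent_iff.1 hnli
  -- normalise and lift
  let cb : Fin l → ZMod p := fun i => (c₀ i₀)⁻¹ * c₀ i
  have hcb₀ : cb i₀ = 1 := inv_mul_cancel₀ hi₀
  have hsum : ∀ j, ∑ i, cb i * ((A₁ i j : ℤ) : ZMod p) = 0 := by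
    intro j
    have h1 := congrFun hsum₀ j
    simp only [Finset.sum_apply, Pi.smul_apply, smul_eq_mul, Pi.zero_apply] at h1
    have h2 : ∑ i, cb i * ((A₁ i j : ℤ) : ZMod p) =
        (c₀ i₀)⁻¹ * ∑ i, c₀ i * (A₁.map (Int.castRingHom (ZMod p))).row i j := by
      rw [Finset.mul_sum]
      refine Finset.sum_congr rfl fun i _ => ?_
      simp only [cb, Matrix.row, Matrix.map_apply, eq_intCast]
      ring
    rw [h2, h1, mul_zero]
  let c : Fin l → ℤ := Function.update (fun i => ((cb i).val : ℤ)) i₀ 1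
  have hc₀ : c i₀ = 1 := Function.update_self ..
  have hcc : ∀ i, ((c i : ℤ) : ZMod p) = cb i := by
    intro i
    by_cases hi : i = i₀
    · subst hi
      rw [hc₀, hcb₀, Int.cast_one]
    · simp only [c, Function.update_of_ne hi]
      rw [Int.cast_natCast, ZMod.natCast_zmod_val]
  have hdiv : ∀ j, (p : ℤ) ∣ (c ᵥ* A₁) j := by
    intro j
    rw [← ZMod.intCast_zmod_eq_zero_iff_dvd]
    simp only [Matrix.vecMul, dotProduct]
    push_cast
    rw [← hsum j]
    refine Finset.sum_congr rfl fun i _ => ?_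
    rw [hcc]
  choose u hu using hdiv
  refine ⟨A₁.updateRow i₀ u, (1 : Matrix (Fin l) (Fin l) ℚ).updateRow i₀
    (fun k => (c k : ℚ) / p), ?_, ?_, ?_⟩
  · -- determinant of `g`
    have h1 := Matrix.det_updateRow_sum (1 : Matrix (Fin l) (Fin l) ℚ) i₀
      (fun k => (c k : ℚ) / p)
    have h2 : (∑ k, ((c k : ℚ) / p) • (1 : Matrix (Fin l) (Fin l) ℚ) k) =
        fun k => (c k : ℚ) / p := by
      ext j
      simp [Finset.sum_apply, Matrix.one_apply]
    rw [h2] at h1
    rw [h1, hc₀, Matrix.det_one]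
    simp [hp0]
  · -- the relation
    rw [Matrix.updateRow_mul, Matrix.one_mul, Matrix.map_updateRow]
    congr 1
    ext j
    have h1 := hu j
    simp only [Matrix.vecMul, dotProduct, Function.comp_apply, eq_intCast, Matrix.map_apply]
    have h2 : ((u j : ℤ) : ℚ) = (((c ᵥ* A₁) j : ℤ) : ℚ) / p := by
      rw [h1]
      push_cast
      field_simp
    rw [h2]
    simp only [Matrix.vecMul, dotProduct]
    push_cast
    rw [Finset.sum_div]
    refine Finset.sum_congr rfl fun i _ => ?_
    ring
  · -- the minors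
    intro s
    unfold minor
    set e := s.1.orderEmbOfFin s.2 with he
    set M₁ := A₁.submatrix id e with hM₁
    have h1 := Matrix.det_updateRow_sum M₁ i₀ c
    have h2 : (∑ k, c k • M₁ k) = (p : ℤ) • (u ∘ e) := by
      ext j
      have := hu (e j)
      simp only [Matrix.vecMul, dotProduct] at this
      simp only [Finset.sum_apply, Pi.smul_apply, smul_eq_mul, Function.comp_apply, hM₁,
        Matrix.submatrix_apply, id_eq]
      rw [this]
    rw [h2, Matrix.det_updateRow_smul, hc₀, one_smul] at h1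
    have h3 : M₁.updateRow i₀ (u ∘ e) = (A₁.updateRow i₀ u).submatrix id e := by
      ext i j
      simp only [Matrix.updateRow_apply, Matrix.submatrix_apply, id_eq, Function.comp_apply, hM₁]
    rw [← h3, ← h1]

/-- **(L3)** a primitive integral representative. -/
theorem exists_primitive {l n : ℕ} (A₁ : Matrix (Fin l) (Fin n) ℤ)
    (h : ∃ s, minor A₁ s ≠ 0) :
    ∃ (A' : Matrix (Fin l) (Fin n) ℤ) (g : Matrix (Fin l) (Fin l) ℚ), g.det ≠ 0 ∧
      A'.map (Int.castRingHom ℚ) = g * A₁.map (Int.castRingHom ℚ) ∧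
      Finset.univ.gcd (minor A') = 1 := by
  classical
  have key : ∀ k : ℕ, ∀ A₁ : Matrix (Fin l) (Fin n) ℤ, (∃ s, minor A₁ s ≠ 0) →
      (Finset.univ.gcd (minor A₁)).natAbs = k →
      ∃ (A' : Matrix (Fin l) (Fin n) ℤ) (g : Matrix (Fin l) (Fin l) ℚ), g.det ≠ 0 ∧
        A'.map (Int.castRingHom ℚ) = g * A₁.map (Int.castRingHom ℚ) ∧
        Finset.univ.gcd (minor A') = 1 := by
    intro k
    induction k using Nat.strong_induction_on with
    | _ k ih =>
      intro A₁ hne hk
      obtain ⟨s₀, hs₀⟩ := hne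
      have hg0 : Finset.univ.gcd (minor A₁) ≠ 0 := by
        intro h0
        rw [Finset.gcd_eq_zero_iff] at h0
        exact hs₀ (h0 s₀ (Finset.mem_univ _))
      have hnn : 0 ≤ Finset.univ.gcd (minor A₁) := by
        have h1 : |Finset.univ.gcd (minor A₁)| = Finset.univ.gcd (minor A₁) := by
          rw [Int.abs_eq_normalize, Finset.normalize_gcd]
        rw [← h1]
        exact abs_nonneg _
      by_cases hk1 : k = 1
      · refine ⟨A₁, 1, by simp, by simp, ?_⟩
        have h1 : ((Finset.univ.gcd (minor A₁)).natAbs : ℤ) = 1 := by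
          rw [hk, hk1]
          rfl
        rw [Int.natAbs_of_nonneg hnn] at h1
        exact h1
      · have hk0 : k ≠ 0 := by
          rw [← hk]
          exact Int.natAbs_ne_zero.2 hg0
        obtain ⟨p, hp, hpk⟩ := Nat.exists_prime_and_dvd hk1
        have hpg : (p : ℤ) ∣ Finset.univ.gcd (minor A₁) := by
          rw [← hk] at hpk
          exact Int.natCast_dvd.2 hpk
        have hdvd : ∀ s, (p : ℤ) ∣ minor A₁ s := fun s =>
          hpg.trans (Finset.gcd_dvd (Finset.mem_univ s))
        obtain ⟨A₂, g₂, hg₂, hrel₂, hmin⟩ := exists_descent_step A₁ p hp hdvd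
        have hgcd : Finset.univ.gcd (minor A₁) = p * Finset.univ.gcd (minor A₂) := by
          have h1 : minor A₁ = fun s => (p : ℤ) * minor A₂ s := funext hmin
          rw [h1, Finset.gcd_mul_left, Int.normalize_of_nonneg (Int.natCast_nonneg p)]
        have hne₂ : ∃ s, minor A₂ s ≠ 0 := by
          refine ⟨s₀, fun h0 => hs₀ ?_⟩
          rw [hmin, h0, mul_zero]
        have hlt : (Finset.univ.gcd (minor A₂)).natAbs < k := by
          rw [← hk, hgcd, Int.natAbs_mul, Int.natAbs_natCast]
          have h2 : (Finset.univ.gcd (minor A₂)).natAbs ≠ 0 := by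
            intro h0
            apply hg0
            rw [hgcd, Int.natAbs_eq_zero.1 h0, mul_zero]
          have hp2 := hp.two_le
          nlinarith [Nat.pos_of_ne_zero h2]
        obtain ⟨A', g', hg', hrel', hprim⟩ := ih _ hlt A₂ hne₂ rfl
        refine ⟨A', g' * g₂, ?_, ?_, hprim⟩
        · rw [Matrix.det_mul]
          exact mul_ne_zero hg' hg₂
        · rw [hrel', hrel₂, Matrix.mul_assoc]
  exact key _ A₁ h rfl

end Fermat.Agent.H48.SmallVec
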