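import Mathlib

/-!
# P-MW / MW-SMALLVEC (row 681), part 4: heights of integral vectors (Mathlib only)
-/

set_option autoImplicit false
set_option linter.unusedSectionVars false

noncomputable section

namespace Fermat.Agent.H48.SmallVec

open Height

/-- **(L6)** the logarithmic height of a nonzero integral vector is at most the logarithm of
any bound for its entries. -/
theorem logHeight_intCast_le {ι : Type*} [Fintype ι] (v : ι → ℤ) (hv : v ≠ 0) (M : ℝ)
    (hM : ∀ j, ((|v j| : ℤ) : ℝ) ≤ M) :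
    logHeight (fun j => ((v j : ℤ) : ℚ)) ≤ Real.log M := by
  classical
  obtain ⟨j₀, hj₀⟩ : ∃ j, v j ≠ 0 := by
    by_contra hcon
    push Not at hcon
    exact hv (funext hcon)
  have : Nonempty ι := ⟨j₀⟩
  obtain ⟨v', hv', hgcd⟩ := Finset.extract_gcd v (Finset.univ_nonempty (α := ι))
  set d := Finset.univ.gcd v with hd
  have hd0 : d ≠ 0 := by
    intro h0
    rw [hd, Finset.gcd_eq_zero_iff] at h0
    exact hj₀ (h0 j₀ (Finset.mem_univ _))
  have h1 : (fun j => ((v j : ℤ) : ℚ)) = (d : ℚ) • (((↑) : ℤ → ℚ) ∘ v') := by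
    ext j
    simp only [Pi.smul_apply, Function.comp_apply, smul_eq_mul]
    rw [hv' j (Finset.mem_univ j)]
    push_cast
    rfl
  rw [h1, logHeight_smul_eq_logHeight _ (Int.cast_ne_zero.2 hd0),
    Rat.logHeight_eq_max_abs_of_gcd_eq_one hgcd]
  obtain ⟨i, hi⟩ := exists_eq_ciSup_of_finite (f := fun i => |v' i|)
  rw [← hi]
  have hv'j₀ : v' j₀ ≠ 0 := by
    intro h0
    apply hj₀
    rw [hv' j₀ (Finset.mem_univ _), h0, mul_zero]
  have hpos : (0 : ℤ) < |v' i| := by
    have h2 : |v' j₀| ≤ |v' i| := by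
      rw [hi]
      exact le_ciSup (f := fun i => |v' i|) (Set.finite_range _).bddAbove j₀
    exact lt_of_lt_of_le (abs_pos.2 hv'j₀) h2
  have hle : |v' i| ≤ |v i| := by
    rw [hv' i (Finset.mem_univ _), abs_mul]
    have h3 : (1 : ℤ) ≤ |d| := Int.one_le_abs hd0
    nlinarith [abs_nonneg (v' i)]
  apply Real.log_le_log (by exact_mod_cast hpos)
  calc ((|v' i| : ℤ) : ℝ) ≤ ((|v i| : ℤ) : ℝ) := by exact_mod_cast hle
    _ ≤ M := hM i

end Fermat.Agent.H48.SmallVec
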