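import Mathlib
import Fermat.Agent.H92.MW.CoreInterfaces
import Fermat.Agent.H48.MW.SmallVecDescent
import Fermat.Agent.H48.MW.SmallVecBox
import Fermat.Agent.H48.MW.SmallVecHeight

/-!
# P-MW / MW-SMALLVEC (row 681): `SmallVectorStatement`

The row space of a rational `l × n` matrix of rank `l ≥ 1` contains a nonzero vector of
logarithmic height at most `(1 / l) * (Pluecker height) + log l`.
-/

set_option autoImplicit false
set_option linter.unusedSectionVars false

noncomputable section

namespace Fermat.Agent.H48.SmallVec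

open Matrix Module Height
open Fermat.Agent.H92.MW (minorVec)

theorem minorVec_eq_minor {K : Type*} [CommRing K] {l n : ℕ} (A : Matrix (Fin l) (Fin n) K) :
    minorVec A = minor A := rfl

/-- clearing denominators -/
theorem exists_int_matrix {l n : ℕ} (A : Matrix (Fin l) (Fin n) ℚ) :
    ∃ (D : ℤ) (A₁ : Matrix (Fin l) (Fin n) ℤ), D ≠ 0 ∧
      A₁.map (Int.castRingHom ℚ) = (D : ℚ) • A := by
  classical
  obtain ⟨b, hb⟩ := IsLocalization.exist_integer_multiples (nonZeroDivisors ℤ)
    (Finset.univ : Finset (Fin l × Fin n)) (fun ij => A ij.1 ij.2)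
  choose! a ha using hb
  refine ⟨(b : ℤ), Matrix.of fun i j => a (i, j), nonZeroDivisors.ne_zero b.2, ?_⟩
  ext i j
  have := ha (i, j) (Finset.mem_univ _)
  simp only [Matrix.map_apply, Matrix.of_apply, Matrix.smul_apply, smul_eq_mul]
  rw [show (Int.castRingHom ℚ) (a (i, j)) = algebraMap ℤ ℚ (a (i, j)) from rfl, this]
  rw [zsmul_eq_mul]

/-- maximal minors of a product `G * A` with `G` square -/
theorem minor_mul {K : Type*} [CommRing K] {l n : ℕ} (G : Matrix (Fin l) (Fin l) K)
    (A : Matrix (Fin l) (Fin n) K) (s : {s : Finset (Fin n) // s.card = l}) :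
    minor (G * A) s = G.det * minor A s := by
  unfold minor
  rw [← Matrix.det_mul]
  congr 1

/-- the integer `B = ⌊H ^ (1 / l)⌋` -/
theorem exists_root_floor (l H : ℕ) (hl : 1 ≤ l) :
    ∃ B : ℕ, B ^ l ≤ H ∧ H < (B + 1) ^ l := by
  classical
  have hex : ∃ b : ℕ, H < (b + 1) ^ l := by
    refine ⟨H, ?_⟩
    calc H < H + 1 := Nat.lt_succ_self H
      _ = (H + 1) ^ 1 := (pow_one _).symm
      _ ≤ (H + 1) ^ l := Nat.pow_le_pow_right (Nat.succ_pos H) hl
  refine ⟨Nat.find hex, ?_, Nat.find_spec hex⟩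
  rcases Nat.eq_zero_or_pos (Nat.find hex) with h0 | hpos
  · rw [h0, zero_pow (by omega)]
    exact Nat.zero_le _
  · have h1 := Nat.find_min hex (Nat.pred_lt (Nat.pos_iff_ne_zero.1 hpos))
    rw [not_lt] at h1
    have h2 : Nat.find hex - 1 + 1 = Nat.find hex := Nat.sub_add_cancel hpos
    rw [Nat.pred_eq_sub_one, h2] at h1
    exact h1

/-- **MW-SMALLVEC** (row 681). -/
theorem smallVector : Fermat.Agent.H92.MW.SmallVectorStatement := by
  classical
  intro l n A hl hA
  have hl0 : (0 : ℝ) < l := by exact_mod_cast hl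
  -- clear denominators
  obtain ⟨D, A₁, hD0, hA₁⟩ := exists_int_matrix A
  have hDQ : (D : ℚ) ≠ 0 := Int.cast_ne_zero.2 hD0
  -- a nonzero minor
  obtain ⟨s₁, hs₁⟩ := exists_minor_ne_zero A hA
  have hne₁ : ∃ s, minor A₁ s ≠ 0 := by
    refine ⟨s₁, fun h0 => hs₁ ?_⟩
    have h1 : minor (A₁.map (Int.castRingHom ℚ)) s₁ = 0 := by
      rw [minor_map, h0, map_zero]
    rw [hA₁] at h1
    have h2 : (D : ℚ) • A = ((D : ℚ) • (1 : Matrix (Fin l) (Fin l) ℚ)) * A := by
      rw [Matrix.smul_mul, Matrix.one_mul]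
    rw [h2, minor_mul, Matrix.det_smul, Matrix.det_one, mul_one] at h1
    rcases mul_eq_zero.1 h1 with h3 | h3
    · exact absurd (pow_eq_zero_iff (by simp; omega) |>.1 h3) hDQ
    · exact h3
  obtain ⟨A', g, hg, hrel, hprim⟩ := exists_primitive A₁ hne₁
  -- absorb `D`
  set G : Matrix (Fin l) (Fin l) ℚ := (D : ℚ) • g with hG
  have hGdet : G.det ≠ 0 := by
    rw [hG, Matrix.det_smul]
    exact mul_ne_zero (pow_ne_zero _ hDQ) hg
  have hrelG : A'.map (Int.castRingHom ℚ) = G * A := by
    rw [hrel, hA₁, hG, Matrix.mul_smul, Matrix.smul_mul]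
  have : Nonempty {s : Finset (Fin n) // s.card = l} := ⟨s₁⟩
  -- the largest minor
  obtain ⟨s₀, hs₀max⟩ := Finite.exists_max (fun s => |minor A' s|)
  have hs₀ : minor A' s₀ ≠ 0 := by
    intro h0
    have hall : ∀ s ∈ (Finset.univ : Finset {s : Finset (Fin n) // s.card = l}),
        minor A' s = 0 := by
      intro s _
      have := hs₀max s
      rw [h0, abs_zero] at this
      exact abs_eq_zero.1 (le_antisymm this (abs_nonneg _))
    have := (Finset.gcd_eq_zero_iff).2 hall
    rw [this] at hprim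
    exact zero_ne_one hprim
  set H : ℕ := (minor A' s₀).natAbs with hH
  have hHpos : 0 < H := Int.natAbs_pos.2 hs₀
  obtain ⟨B, hB1, hB2⟩ := exists_root_floor l H hl
  obtain ⟨y, hy0, hyB⟩ := exists_small_combination A' s₀ hs₀ hs₀max B hB2
  -- the coefficient vector
  have hvec : (fun i => ((y i : ℤ) : ℚ)) ᵥ* G ᵥ* A = fun j => (((y ᵥ* A') j : ℤ) : ℚ) := by
    rw [Matrix.vecMul_vecMul, ← hrelG]
    ext j
    simp only [Matrix.vecMul, dotProduct, Matrix.map_apply, eq_intCast]
    push_cast
    rfl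
  refine ⟨(fun i => ((y i : ℤ) : ℚ)) ᵥ* G, ?_, ?_⟩
  · intro h0
    apply hy0
    have h1 := hvec
    rw [h0, Matrix.zero_vecMul] at h1
    ext j
    have := congrFun h1 j
    simp only [Pi.zero_apply] at this
    exact_mod_cast this.symm
  · rw [hvec]
    -- `B ≥ 1`
    have hB0 : 1 ≤ B := by
      by_contra hcon
      have hB : B = 0 := by omega
      apply hy0
      ext j
      have := hyB j
      rw [hB] at this
      simp only [Nat.cast_zero, mul_zero] at this
      exact abs_eq_zero.1 (le_antisymm this (abs_nonneg _))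
    have hBR : (0 : ℝ) < B := by exact_mod_cast hB0
    -- height of the vector
    have h1 : logHeight (fun j => (((y ᵥ* A') j : ℤ) : ℚ)) ≤ Real.log ((l : ℝ) * B) := by
      apply logHeight_intCast_le _ hy0
      intro j
      exact_mod_cast hyB j
    -- the Pluecker height
    have h2 : logHeight (minorVec A) = Real.log (H : ℝ) := by
      have h3 : (((↑) : ℤ → ℚ) ∘ minor A') = G.det • minorVec A := by
        ext s
        simp only [Function.comp_apply, Pi.smul_apply, smul_eq_mul]
        rw [minorVec_eq_minor, ← minor_mul, ← hrelG, minor_map]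
        rfl
      have h4 := Rat.logHeight_eq_max_abs_of_gcd_eq_one hprim
      rw [h3, logHeight_smul_eq_logHeight _ hGdet] at h4
      rw [h4]
      have h5 : (⨆ s, |minor A' s|) = |minor A' s₀| := by
        apply le_antisymm
        · exact ciSup_le hs₀max
        · exact le_ciSup (f := fun s => |minor A' s|) (Set.finite_range _).bddAbove s₀
      rw [h5, hH, Nat.cast_natAbs]
    rw [h2]
    -- `l * log B ≤ log H`
    have h6 : (l : ℝ) * Real.log B ≤ Real.log H := by
      rw [← Real.log_pow]
      apply Real.log_le_log (pow_pos hBR l)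
      exact_mod_cast hB1
    have h7 : Real.log B ≤ Real.log H / l := by
      rw [le_div_iff₀ hl0]
      linarith
    calc logHeight (fun j => (((y ᵥ* A') j : ℤ) : ℚ)) ≤ Real.log ((l : ℝ) * B) := h1
      _ = Real.log l + Real.log B := Real.log_mul hl0.ne' hBR.ne'
      _ ≤ Real.log H / l + Real.log l := by linarith

end Fermat.Agent.H48.SmallVec
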